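/-
PROJECT H (S17), seam S-4 (helper2): interpolation over an infinite field.  If all values at
`K`-rational points of a polynomial with coefficients in a `K`-algebra `E` lie in a `K`-subspace
`W ⊆ E`, then all its coefficients lie in `W`.  Mathlib only.
-/
import Mathlib

set_option autoImplicit false
set_option linter.unusedSectionVars false

namespace Fermat.Agent.S17.Norm.Interp

variable {K E : Type*} [Field K] [Infinite K] [CommRing E] [Algebra K E]

/-- several variables -/
theorem mv_coeff_mem {ι : Type*} (W : Submodule K E) (p : MvPolynomial ι E)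
    (h : ∀ a : ι → K, MvPolynomial.eval (fun j => algebraMap K E (a j)) p ∈ W)
    (m : ι →₀ ℕ) : p.coeff m ∈ W := by
  classical
  by_contra hm
  obtain ⟨l, hl, hW⟩ := Submodule.exists_le_ker_of_notMem hm
  set q : MvPolynomial ι K := ∑ d ∈ p.support, MvPolynomial.monomial d (l (p.coeff d)) with hq
  have hq0 : q = 0 := by
    refine MvPolynomial.funext fun a => ?_
    rw [map_zero, hq, map_sum]
    have h1 := hW (h a)
    rw [LinearMap.mem_ker, MvPolynomial.eval_eq, map_sum] at h1
    rw [← h1]
    refine Finset.sum_congr rfl fun d _ => ?_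
    rw [MvPolynomial.eval_monomial]
    have h2 : ∏ i ∈ d.support, algebraMap K E (a i) ^ d i =
        algebraMap K E (∏ i ∈ d.support, a i ^ d i) := by
      rw [map_prod]
      exact Finset.prod_congr rfl fun i _ => (map_pow _ _ _).symm
    rw [h2, mul_comm (MvPolynomial.coeff d p), ← Algebra.smul_def, map_smul, smul_eq_mul,
      mul_comm]
    rfl
  have h3 : q.coeff m = l (p.coeff m) := by
    rw [hq, MvPolynomial.coeff_sum]
    simp only [MvPolynomial.coeff_monomial]
    rw [Finset.sum_ite_eq' p.support m]
    have hmem : m ∈ p.support := by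
      rw [MvPolynomial.mem_support_iff]
      intro h0
      exact hm (h0 ▸ W.zero_mem)
    rw [if_pos hmem]
  rw [hq0, MvPolynomial.coeff_zero] at h3
  exact hl h3.symm

/-- one variable -/
theorem coeff_mem (W : Submodule K E) (p : Polynomial E)
    (h : ∀ b : K, p.eval (algebraMap K E b) ∈ W) (n : ℕ) : p.coeff n ∈ W := by
  classical
  by_contra hn
  obtain ⟨l, hl, hW⟩ := Submodule.exists_le_ker_of_notMem hn
  set q : Polynomial K := ∑ d ∈ p.support, Polynomial.monomial d (l (p.coeff d)) with hq
  have hq0 : q = 0 := by
    refine Polynomial.funext fun b => ?_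
    rw [Polynomial.eval_zero, hq, Polynomial.eval_finsetSum]
    have h1 := hW (h b)
    rw [LinearMap.mem_ker, Polynomial.eval_eq_sum, Polynomial.sum_def, map_sum] at h1
    rw [← h1]
    refine Finset.sum_congr rfl fun d _ => ?_
    rw [Polynomial.eval_monomial, ← map_pow, mul_comm (p.coeff d), ← Algebra.smul_def, map_smul,
      smul_eq_mul, mul_comm]
  have h3 : q.coeff n = l (p.coeff n) := by
    rw [hq, Polynomial.finsetSum_coeff]
    simp only [Polynomial.coeff_monomial]
    rw [Finset.sum_ite_eq' p.support n]
    have hmem : n ∈ p.support := by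
      rw [Polynomial.mem_support_iff]
      intro h0
      exact hn (h0 ▸ W.zero_mem)
    rw [if_pos hmem]
  rw [hq0, Polynomial.coeff_zero] at h3
  exact hl h3.symm

end Fermat.Agent.S17.Norm.Interp
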