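/-
PROJECT H (S17), seam S-4 (helper2), part (N1): the norm of a function `φ` that is regular
wherever `t` is regular, from `F` down to `K(t)`, is a constant times the product of the
`(t - t(w))^(ord_w φ)` over the zeros `w` of `φ` ("norm = push-forward of the zero divisor",
in factorised polynomial form).  Abstract function-field language of S24/S37.
-/
import Mathlib
import Fermat.Agent.S37.Hecke.Tower
import Fermat.Agent.S24.Hurwitz

set_option autoImplicit false
set_option linter.style.haveILetI false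
set_option linter.unusedSectionVars false

namespace Fermat.Agent.S17.Norm.NormPoly

open AlgebraicCurve IntermediateField
open Fermat.Agent.S24.FF Fermat.Agent.S24.Fibre

universe u w

variable {K : Type w} {F : Type u} [Field K] [Field F] [Algebra K F]

/-- in the field `K(t)`, the generator generates -/
theorem adjoin_gen_eq_top (t : F) : K⟮AdjoinSimple.gen K t⟯ = ⊤ := by
  rw [eq_top_iff]
  rintro ⟨y, hy⟩ -
  obtain ⟨r, s, hrs⟩ := (mem_adjoin_simple_iff K y).mp hy
  refine (mem_adjoin_simple_iff K _).mpr ⟨r, s, ?_⟩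
  apply Subtype.ext
  simp only [IntermediateField.coe_div, AdjoinSimple.coe_aeval_gen_apply]
  exact hrs

/-- the generator of `K(t)` is a function-field generator of `K(t)` -/
theorem isFF_gen {t : F} (ht : IsFF K t) : IsFF K (AdjoinSimple.gen K t) := by
  refine ⟨?_, ?_⟩
  · intro halg
    apply ht.transcendental
    have := halg.algebraMap (A := F)
    simpa using this
  · rw [adjoin_gen_eq_top]
    exact Module.Finite.of_surjective
      (Algebra.linearMap (⊤ : IntermediateField K K⟮t⟯) K⟮t⟯)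
      (fun x => ⟨⟨x, IntermediateField.mem_top⟩, rfl⟩)


/-! ### Places of a field of rational functions `E` with generator `g` (`K⟮g⟯ = ⊤`) -/

section Rational

open Fermat.Agent.S24

variable [IsAlgClosed K] [CharZero K]

variable {E : Type u} [Field E] [Algebra K E]

/-- two zeros of `g - b` coincide when `K⟮g⟯ = ⊤` -/
theorem center_unique {g : E} (hg : IsFF K g) (htop : K⟮g⟯ = ⊤) (b : K) {v v' : Place K E}
    (hv : v.adicValuation (g - algebraMap K E b) < 1)
    (hv' : v'.adicValuation (g - algebraMap K E b) < 1) : v = v' := by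
  classical
  obtain ⟨s, hs, hsum⟩ := exists_fibre hg b
  have hfr : (Module.finrank K⟮g⟯ E : ℤ) = 1 := by
    rw [htop, IntermediateField.finrank_top]
    rfl
  rw [hfr] at hsum
  have hgb : g - algebraMap K E b ≠ 0 := sub_ne_zero.mpr (hg.ne_algebraMap b)
  have hpos : ∀ u ∈ s, 1 ≤ u.ord (g - algebraMap K E b) := fun u hu => by
    have := (Ord.ord_pos_iff u hgb).mpr ((hs u).mp hu)
    omega
  by_contra hne
  have hvs : v ∈ s := (hs v).mpr hv
  have hv's : v' ∈ s := (hs v').mpr hv'
  have hsub : ({v, v'} : Finset (Place K E)) ⊆ s := by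
    intro u hu
    rcases Finset.mem_insert.mp hu with rfl | hu
    · exact hvs
    · rw [Finset.mem_singleton] at hu
      exact hu ▸ hv's
  have h2 : ∑ u ∈ ({v, v'} : Finset (Place K E)), u.ord (g - algebraMap K E b) ≤
      ∑ u ∈ s, u.ord (g - algebraMap K E b) :=
    Finset.sum_le_sum_of_subset_of_nonneg hsub fun u hu _ => by
      have := hpos u hu
      omega
  rw [Finset.sum_pair hne] at h2
  have := hpos v hvs
  have := hpos v' hv's
  omega

/-- the order of `g - b` at its zero is one when `K⟮g⟯ = ⊤` -/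
theorem ord_center {g : E} (hg : IsFF K g) (htop : K⟮g⟯ = ⊤) (b : K) {v : Place K E}
    (hv : v.adicValuation (g - algebraMap K E b) < 1) :
    v.ord (g - algebraMap K E b) = 1 := by
  classical
  obtain ⟨s, hs, hsum⟩ := exists_fibre hg b
  have hfr : (Module.finrank K⟮g⟯ E : ℤ) = 1 := by
    rw [htop, IntermediateField.finrank_top]
    rfl
  rw [hfr] at hsum
  have hgb : g - algebraMap K E b ≠ 0 := sub_ne_zero.mpr (hg.ne_algebraMap b)
  have hs1 : s = {v} := by
    refine Finset.eq_singleton_iff_unique_mem.mpr ⟨(hs v).mpr hv, fun u hu => ?_⟩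
    exact center_unique hg htop b ((hs u).mp hu) hv
  rw [hs1, Finset.sum_singleton] at hsum
  exact hsum

/-- the order of `g - a` at a place with another centre is zero -/
theorem ord_off_center {g : E} (b a : K) (hab : a ≠ b) {v : Place K E}
    (hv : v.adicValuation (g - algebraMap K E b) < 1) :
    v.ord (g - algebraMap K E a) = 0 := by
  have h1 : g - algebraMap K E a = (g - algebraMap K E b) + algebraMap K E (b - a) := by
    rw [map_sub]; ring
  have h2 : v.adicValuation (algebraMap K E (b - a)) = 1 :=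
    Ord.adicValuation_algebraMap v (sub_ne_zero.mpr hab.symm)
  have h3 : v.adicValuation (g - algebraMap K E a) = 1 := by
    rw [h1, Valuation.map_add_eq_of_lt_right _ (by rw [h2]; exact hv), h2]
  rw [Ord.ord_eq, h3, WithZero.log_one, neg_zero]

/-- two poles of `g` coincide when `K⟮g⟯ = ⊤` -/
theorem pole_unique {g : E} (hg : IsFF K g) (htop : K⟮g⟯ = ⊤) {v v' : Place K E}
    (hv : 1 < v.adicValuation g) (hv' : 1 < v'.adicValuation g) : v = v' := by
  have htop' : K⟮g⁻¹⟯ = ⊤ := by rw [adjoin_inv, htop]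
  have key : ∀ u : Place K E, 1 < u.adicValuation g →
      u.adicValuation (g⁻¹ - algebraMap K E 0) < 1 := fun u hu => by
    rw [map_zero, sub_zero, map_inv₀]
    exact inv_lt_one_of_one_lt₀ hu
  exact center_unique hg.inv htop' 0 (key v hv) (key v' hv')

/-- an element of `E = K(g)` without zeros or poles at the places where `g` is regular is a
constant -/
theorem const_of_ord_eq_zero {g : E} (hg : IsFF K g) (htop : K⟮g⟯ = ⊤) {R : E} (hR : R ≠ 0)
    (h : ∀ v : Place K E, v.adicValuation g ≤ 1 → v.ord R = 0) :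
    ∃ c : K, c ≠ 0 ∧ R = algebraMap K E c := by
  classical
  by_contra hcon
  have hnr : ∀ c : K, algebraMap K E c ≠ R := by
    intro c hc
    apply hcon
    refine ⟨c, ?_, hc.symm⟩
    rintro rfl
    rw [map_zero] at hc
    exact hR hc.symm
  have hRff : IsFF K R := hg.of_not_mem_range hnr
  haveI := hRff.finite
  have hfr : (1 : ℤ) ≤ (Module.finrank K⟮R⟯ E : ℤ) := by
    have : 0 < Module.finrank K⟮R⟯ E := Module.finrank_pos
    omega
  -- a zero of `R`
  obtain ⟨s, hs, hsum⟩ := exists_fibre hRff 0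
  have hsne : s.Nonempty := by
    by_contra hemp
    rw [Finset.not_nonempty_iff_eq_empty] at hemp
    rw [hemp, Finset.sum_empty] at hsum
    omega
  obtain ⟨v0, hv0⟩ := hsne
  have hv0' : v0.adicValuation R < 1 := by
    have := (hs v0).mp hv0
    rwa [map_zero, sub_zero] at this
  -- a pole of `R`
  obtain ⟨s', hs', hsum'⟩ := exists_poles hRff
  have hsne' : s'.Nonempty := by
    by_contra hemp
    rw [Finset.not_nonempty_iff_eq_empty] at hemp
    rw [hemp, Finset.sum_empty] at hsum'
    omega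
  obtain ⟨v1, hv1⟩ := hsne'
  have hv1' : 1 < v1.adicValuation R := (hs' v1).mp hv1
  -- both are poles of `g`
  have hp0 : 1 < v0.adicValuation g := by
    by_contra hle
    rw [not_lt] at hle
    have h0 := h v0 hle
    have := (Ord.ord_pos_iff v0 hR).mpr hv0'
    omega
  have hp1 : 1 < v1.adicValuation g := by
    by_contra hle
    rw [not_lt] at hle
    have h0 := h v1 hle
    have := (Ord.ord_neg_iff v1 hR).mpr hv1'
    omega
  have := pole_unique hg htop hp0 hp1
  subst this
  exact absurd hv0' (not_lt.mpr (le_of_lt hv1'))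

end Rational


/-! ### The norm down to `K(t)` -/

section Main

open Fermat.Agent.S24

variable [IsAlgClosed K] [CharZero K]

/-- the order of a product of powers -/
theorem ord_prod_pow {E : Type*} [Field E] [Algebra K E] (v : Place K E) {ι : Type*}
    (s : Finset ι) (f : ι → E) (n : ι → ℕ) (hf : ∀ i ∈ s, f i ≠ 0) :
    v.ord (∏ i ∈ s, f i ^ n i) = ∑ i ∈ s, (n i : ℤ) * v.ord (f i) := by
  classical
  induction s using Finset.induction_on with
  | empty => simp
  | insert i s hi ih =>
    have hfi : f i ≠ 0 := hf i (Finset.mem_insert_self i s)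
    have hrest : ∀ j ∈ s, f j ≠ 0 := fun j hj => hf j (Finset.mem_insert_of_mem hj)
    rw [Finset.prod_insert hi, Finset.sum_insert hi,
      v.ord_mul (pow_ne_zero _ hfi) (Finset.prod_ne_zero_iff.mpr fun j hj =>
        pow_ne_zero _ (hrest j hj)), ih hrest, ← zpow_natCast, v.ord_zpow]

/-- `t` is regular at `w` iff the generator of `K(t)` is regular at the restriction of `w` -/
theorem regular_restrict_iff {t : F} (ht : IsFF K t) (w : Place K F) :
    haveI := ht.finite
    (w.restrict K⟮t⟯).adicValuation (AdjoinSimple.gen K t) ≤ 1 ↔ w.adicValuation t ≤ 1 := by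
  haveI := ht.finite
  rw [← Ord.mem_iff, ← Ord.mem_iff, Place.mem_restrict_iff, AdjoinSimple.algebraMap_gen]

/-- a zero of `t - a` restricts to a zero of `g - a` -/
theorem center_restrict {t : F} (ht : IsFF K t) (w : Place K F) (a : K)
    (h : w.adicValuation (t - algebraMap K F a) < 1) :
    haveI := ht.finite
    (w.restrict K⟮t⟯).adicValuation (AdjoinSimple.gen K t - algebraMap K K⟮t⟯ a) < 1 := by
  haveI := ht.finite
  have hg := isFF_gen ht
  have hne : AdjoinSimple.gen K t - algebraMap K K⟮t⟯ a ≠ 0 :=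
    sub_ne_zero.mpr (hg.ne_algebraMap a)
  have hne' : t - algebraMap K F a ≠ 0 := sub_ne_zero.mpr (ht.ne_algebraMap a)
  have himg : algebraMap K⟮t⟯ F (AdjoinSimple.gen K t - algebraMap K K⟮t⟯ a) =
      t - algebraMap K F a := by
    rw [map_sub, AdjoinSimple.algebraMap_gen, ← IsScalarTower.algebraMap_apply]
  rw [← Ord.ord_pos_iff _ hne]
  have h1 := (Ord.ord_pos_iff w hne').mpr h
  rw [← himg, w.ord_restrict] at h1
  have hepos : 0 < Place.ramificationIndex (F := K⟮t⟯) w := w.ramificationIndex_pos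
  by_contra hle
  rw [not_lt] at hle
  have : (Place.ramificationIndex (F := K⟮t⟯) w : ℤ) *
      (w.restrict K⟮t⟯).ord (AdjoinSimple.gen K t - algebraMap K K⟮t⟯ a) ≤ 0 :=
    mul_nonpos_of_nonneg_of_nonpos (by omega) hle
  omega

/-- **(N1)** the norm of `φ` down to `K(t)` as a factorised polynomial in `t`: if `φ` is regular
wherever `t` is, then `N(φ) = c ∏_{w ∈ Z} (t - t(w))^(ord_w φ)`, `Z` the set of zeros of `φ`. -/
theorem norm_eq_prod [HasPrincipalDivisors K F] {t : F} (ht : IsFF K t) {φ : F} (h0 : φ ≠ 0)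
    (hreg : ∀ v : Place K F, v.adicValuation t ≤ 1 → v.adicValuation φ ≤ 1) :
    haveI := ht.finite
    ∃ (c : K) (Z : Finset (Place K F)) (a : Place K F → K), c ≠ 0 ∧
      (∀ v, v ∈ Z ↔ v.adicValuation t ≤ 1 ∧ v.adicValuation φ < 1) ∧
      (∀ v ∈ Z, v.adicValuation (t - algebraMap K F (a v)) < 1) ∧
      algebraMap K⟮t⟯ F (Algebra.norm K⟮t⟯ φ) =
        algebraMap K F c * ∏ v ∈ Z, (t - algebraMap K F (a v)) ^ (v.ord φ).toNat := by
  classical
  haveI := ht.finite
  have hg := isFF_gen ht
  have htop := adjoin_gen_eq_top (K := K) t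
  obtain ⟨D, hD, -⟩ := HasPrincipalDivisors.exists_divisor (K := K) φ h0
  set Z : Finset (Place K F) := D.support.filter (fun v => v.adicValuation t ≤ 1) with hZdef
  have hZ : ∀ v, v ∈ Z ↔ v.adicValuation t ≤ 1 ∧ v.adicValuation φ < 1 := by
    intro v
    rw [hZdef, Finset.mem_filter, Finsupp.mem_support_iff, hD v]
    constructor
    · rintro ⟨hne, hr⟩
      refine ⟨hr, ?_⟩
      have h1 := (Ord.ord_nonneg_iff v h0).mpr (hreg v hr)
      exact (Ord.ord_pos_iff v h0).mp (by omega)
    · rintro ⟨hr, hlt⟩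
      have := (Ord.ord_pos_iff v h0).mpr hlt
      exact ⟨by omega, hr⟩
  -- the centres
  have hcen : ∀ v : Place K F, ∃ a : K, v.adicValuation t ≤ 1 →
      v.adicValuation (t - algebraMap K F a) < 1 := by
    intro v
    by_cases h : v.adicValuation t ≤ 1
    · obtain ⟨a, ha⟩ := Ord.exists_sub_lt_one ht v h
      exact ⟨a, fun _ => ha⟩
    · exact ⟨0, fun h' => absurd h' h⟩
  choose a ha using hcen
  have haZ : ∀ v ∈ Z, v.adicValuation (t - algebraMap K F (a v)) < 1 :=
    fun v hv => ha v ((hZ v).mp hv).1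
  -- the candidate
  set g : K⟮t⟯ := AdjoinSimple.gen K t with hgdef
  set Qg : K⟮t⟯ := ∏ v ∈ Z, (g - algebraMap K K⟮t⟯ (a v)) ^ (v.ord φ).toNat with hQg
  have hfac : ∀ v ∈ Z, g - algebraMap K K⟮t⟯ (a v) ≠ 0 :=
    fun v _ => sub_ne_zero.mpr (hg.ne_algebraMap (a v))
  have hQ0 : Qg ≠ 0 := Finset.prod_ne_zero_iff.mpr fun v hv => pow_ne_zero _ (hfac v hv)
  have hN0 : Algebra.norm K⟮t⟯ φ ≠ 0 := Algebra.norm_ne_zero_iff.mpr h0
  have hR0 : Algebra.norm K⟮t⟯ φ * Qg⁻¹ ≠ 0 := mul_ne_zero hN0 (inv_ne_zero hQ0)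
  -- the orders agree at every place where `g` is regular
  have key : ∀ v : Place K K⟮t⟯, v.adicValuation g ≤ 1 →
      v.ord (Algebra.norm K⟮t⟯ φ * Qg⁻¹) = 0 := by
    intro v hv
    obtain ⟨b, hb⟩ := Ord.exists_sub_lt_one hg v hv
    rw [v.ord_mul hN0 (inv_ne_zero hQ0), Place.ord_inv,
      ← Fermat.Agent.S37.Hecke.Tower.sum_ord_fiber hg ht v h0, hQg,
      ord_prod_pow v Z _ _ hfac]
    have h1 : ∀ w ∈ Z, ((w.ord φ).toNat : ℤ) * v.ord (g - algebraMap K K⟮t⟯ (a w)) =
        if w.restrict K⟮t⟯ = v then w.ord φ else 0 := by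
      intro w hw
      have hwc := center_restrict ht w (a w) (haZ w hw)
      have hnn : 0 ≤ w.ord φ := (Ord.ord_nonneg_iff w h0).mpr (hreg w ((hZ w).mp hw).1)
      split_ifs with hres
      · rw [hres] at hwc
        rw [ord_center hg htop (a w) hwc, mul_one, Int.toNat_of_nonneg hnn]
      · have hab : a w ≠ b := by
          intro hab
          rw [hab] at hwc
          exact hres (center_unique hg htop b hwc hb)
        rw [ord_off_center b (a w) hab hb, mul_zero]
    rw [Finset.sum_congr rfl h1, ← Finset.sum_filter]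
    have h2 : ∑ w ∈ v.fiber F, w.ord φ = ∑ w ∈ Z.filter (fun w => w.restrict K⟮t⟯ = v), w.ord φ := by
      symm
      refine Finset.sum_subset ?_ ?_
      · intro w hw
        exact Place.mem_fiber.mpr (Finset.mem_filter.mp hw).2
      · intro w hw hnot
        have hres : w.restrict K⟮t⟯ = v := Place.mem_fiber.mp hw
        have hwreg : w.adicValuation t ≤ 1 := by
          rw [← regular_restrict_iff ht w, hres]
          exact hv
        have hnZ : w ∉ Z := fun hZw => hnot (Finset.mem_filter.mpr ⟨hZw, hres⟩)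
        have hnlt : ¬ w.adicValuation φ < 1 := fun hlt => hnZ ((hZ w).mpr ⟨hwreg, hlt⟩)
        have h3 := (Ord.ord_nonneg_iff w h0).mpr (hreg w hwreg)
        have h4 : ¬ 0 < w.ord φ := fun hpos => hnlt ((Ord.ord_pos_iff w h0).mp hpos)
        omega
    rw [h2]
    ring
  obtain ⟨c, hc, hRc⟩ := const_of_ord_eq_zero hg htop hR0 key
  refine ⟨c, Z, a, hc, hZ, haZ, ?_⟩
  have hN : Algebra.norm K⟮t⟯ φ = algebraMap K K⟮t⟯ c * Qg := by
    rw [← hRc, mul_assoc, inv_mul_cancel₀ hQ0, mul_one]
  rw [hN, map_mul, ← IsScalarTower.algebraMap_apply, hQg, map_prod]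
  refine congrArg (algebraMap K F c * ·) (Finset.prod_congr rfl fun v _ => ?_)
  rw [map_pow, map_sub, hgdef, AdjoinSimple.algebraMap_gen, ← IsScalarTower.algebraMap_apply]

/-- the number of zeros of `φ` (with multiplicity) at the places where `t` is regular equals the
total pole order of `φ` at the poles of `t` -/
theorem sum_ord_zeros [HasPrincipalDivisors K F] {t : F} (ht : IsFF K t) {φ : F} (h0 : φ ≠ 0)
    (hreg : ∀ v : Place K F, v.adicValuation t ≤ 1 → v.adicValuation φ ≤ 1)
    (Z : Finset (Place K F))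
    (hZ : ∀ v, v ∈ Z ↔ v.adicValuation t ≤ 1 ∧ v.adicValuation φ < 1) :
    ∑ v ∈ Z, v.ord φ = - ∑ w ∈ Hurwitz.poles ht, w.ord φ := by
  classical
  obtain ⟨D, hD, hdeg⟩ := HasPrincipalDivisors.exists_divisor (K := K) φ h0
  have hU : D.support ⊆ Z ∪ Hurwitz.poles ht := by
    intro v hv
    rw [Finsupp.mem_support_iff, hD v] at hv
    rw [Finset.mem_union]
    by_cases hr : v.adicValuation t ≤ 1
    · left
      refine (hZ v).mpr ⟨hr, ?_⟩
      have h1 := (Ord.ord_nonneg_iff v h0).mpr (hreg v hr)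
      exact (Ord.ord_pos_iff v h0).mp (by omega)
    · right
      exact (Hurwitz.mem_poles ht v).mpr (not_le.mp hr)
  have hdisj : Disjoint Z (Hurwitz.poles ht) := by
    rw [Finset.disjoint_left]
    intro v h1 h2
    exact absurd ((hZ v).mp h1).1 (not_le.mpr ((Hurwitz.mem_poles ht v).mp h2))
  rw [Hurwitz.degree_eq_sum ht D _ hU, Finset.sum_union hdisj] at hdeg
  have e1 : ∑ v ∈ Z, D v = ∑ v ∈ Z, v.ord φ := Finset.sum_congr rfl fun v _ => hD v
  have e2 : ∑ v ∈ Hurwitz.poles ht, D v = ∑ v ∈ Hurwitz.poles ht, v.ord φ :=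
    Finset.sum_congr rfl fun v _ => hD v
  rw [e1, e2] at hdeg
  omega

end Main

end Fermat.Agent.S17.Norm.NormPoly
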