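/-
PROJECT H (S17), seam S-4 (helper2), items A.2-A.4 of Part A: the characteristic form of a
pencil.  `β : ι → F` functions, `t : F` with `IsFF K t`, all `β j` regular wherever `t` is and with
pole orders bounded by those of `t`; `1` and `t` in the `K`-span of the `β j`.  Then the
characteristic polynomial of `f_a = ∑ a_j β_j` over `K(t)` is
`T^δ + ∑_i C_i(a; 1, t) T^(δ-i)` with `C_i` bihomogeneous of bidegree `(i, i)`.
-/
import Mathlib
import Fermat.Agent.S17.Norm.NormPoly
import Fermat.Agent.S17.Norm.GenericCharpoly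
import Fermat.Agent.S17.Norm.Interp

set_option autoImplicit false
set_option linter.style.haveILetI false
set_option linter.unusedSectionVars false

namespace Fermat.Agent.S17.Norm.CharForm

open AlgebraicCurve IntermediateField Polynomial
open Fermat.Agent.S24 Fermat.Agent.S24.FF Fermat.Agent.S24.Fibre
open Fermat.Agent.S17.Norm

universe u w

variable {K : Type w} {F : Type u} [Field K] [Field F] [Algebra K F]

/-! ### polynomials of bounded degree in the generator of `K(t)` -/

/-- the `K`-subspace of `K(t)` of polynomials in `t` of degree `≤ d` -/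
noncomputable def polyLE (t : F) (d : ℕ) : Submodule K K⟮t⟯ :=
  (Polynomial.degreeLE K (d : WithBot ℕ)).map
    (Polynomial.aeval (AdjoinSimple.gen K t)).toLinearMap

theorem mem_polyLE {t : F} {d : ℕ} {e : K⟮t⟯} :
    e ∈ polyLE (K := K) t d ↔
      ∃ P : K[X], P.natDegree ≤ d ∧ Polynomial.aeval (AdjoinSimple.gen K t) P = e := by
  rw [polyLE, Submodule.mem_map]
  constructor
  · rintro ⟨P, hP, rfl⟩
    exact ⟨P, Polynomial.natDegree_le_iff_degree_le.mpr (Polynomial.mem_degreeLE.mp hP), rfl⟩
  · rintro ⟨P, hP, rfl⟩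
    exact ⟨P, Polynomial.mem_degreeLE.mpr (Polynomial.natDegree_le_iff_degree_le.mp hP), rfl⟩

theorem polyLE_mono (t : F) {d d' : ℕ} (h : d ≤ d') : polyLE (K := K) t d ≤ polyLE t d' := by
  intro e he
  obtain ⟨P, hP, rfl⟩ := mem_polyLE.mp he
  exact mem_polyLE.mpr ⟨P, hP.trans h, rfl⟩

/-- the map `K[X] → K(t)` is injective -/
theorem aeval_gen_injective {t : F} (ht : Transcendental K t) :
    Function.Injective (Polynomial.aeval (R := K) (AdjoinSimple.gen K t)) := by
  rw [← transcendental_iff_injective]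
  intro halg
  apply ht
  have := halg.algebraMap (A := F)
  simpa using this

theorem algebraMap_aeval_gen (t : F) (P : K[X]) :
    algebraMap K⟮t⟯ F (Polynomial.aeval (AdjoinSimple.gen K t) P) = Polynomial.aeval t P := by
  rw [← Polynomial.aeval_algebraMap_apply, AdjoinSimple.algebraMap_gen]

/-- the decisive degree count: if `e` and `e * t^k` are polynomials in `t` of degree `≤ d`,
then `e` has degree `≤ d - k` -/
theorem mem_polyLE_sub {t : F} (ht : Transcendental K t) {d k : ℕ} {e : K⟮t⟯}
    (h1 : e ∈ polyLE (K := K) t d) (h2 : e * AdjoinSimple.gen K t ^ k ∈ polyLE (K := K) t d) :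
    e ∈ polyLE (K := K) t (d - k) := by
  obtain ⟨Q, hQ, rfl⟩ := mem_polyLE.mp h1
  obtain ⟨P, hP, hPe⟩ := mem_polyLE.mp h2
  have h3 : P = Q * X ^ k := by
    apply aeval_gen_injective ht
    rw [hPe, map_mul, map_pow, Polynomial.aeval_X]
  refine mem_polyLE.mpr ⟨Q, ?_, rfl⟩
  rcases eq_or_ne Q 0 with rfl | hQ0
  · simp
  · rw [h3, Polynomial.natDegree_mul_X_pow k hQ0] at hP
    omega

/-! ### the norm of a function with poles bounded by those of `t` -/

section Norm

variable [IsAlgClosed K] [CharZero K]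

/-- comparison of orders from comparison of valuations -/
theorem ord_le_ord_of_adicValuation_le (v : Place K F) {f g : F} (hf : f ≠ 0) (hg : g ≠ 0)
    (h : v.adicValuation f ≤ v.adicValuation g) : v.ord g ≤ v.ord f := by
  have h1 : v.adicValuation (f * g⁻¹) ≤ 1 := by
    rw [map_mul, map_inv₀]
    exact mul_inv_le_one_of_le₀ h zero_le
  have h2 := (Ord.ord_nonneg_iff v (mul_ne_zero hf (inv_ne_zero hg))).mpr h1
  rw [v.ord_mul hf (inv_ne_zero hg), Place.ord_inv] at h2
  omega

/-- **degree bound for the norm**: if the poles of `φ` are bounded by those of `t`, then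
`Norm_{F/K(t)} φ` is a polynomial in `t` of degree `≤ [F : K(t)]`. -/
theorem norm_mem_polyLE [HasPrincipalDivisors K F] {t : F} (ht : IsFF K t) (φ : F)
    (hreg : ∀ v : Place K F, v.adicValuation φ ≤ max 1 (v.adicValuation t)) :
    haveI := ht.finite
    Algebra.norm K⟮t⟯ φ ∈ polyLE (K := K) t (Module.finrank K⟮t⟯ F) := by
  classical
  haveI := ht.finite
  rcases eq_or_ne φ 0 with rfl | h0
  · rw [Algebra.norm_zero]
    exact Submodule.zero_mem _
  have hreg' : ∀ v : Place K F, v.adicValuation t ≤ 1 → v.adicValuation φ ≤ 1 := by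
    intro v hv
    exact (hreg v).trans (max_le le_rfl hv)
  obtain ⟨c, Z, a, hc, hZ, haZ, hnorm⟩ := NormPoly.norm_eq_prod ht h0 hreg'
  have hsum := NormPoly.sum_ord_zeros ht h0 hreg' Z hZ
  set P : K[X] := C c * ∏ v ∈ Z, (X - C (a v)) ^ (v.ord φ).toNat with hP
  refine mem_polyLE.mpr ⟨P, ?_, ?_⟩
  · -- the degree
    have h1 : P.natDegree ≤ ∑ v ∈ Z, (v.ord φ).toNat := by
      refine (Polynomial.natDegree_C_mul_le _ _).trans ?_
      refine (Polynomial.natDegree_prod_le _ _).trans ?_
      refine Finset.sum_le_sum fun v _ => ?_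
      refine (Polynomial.natDegree_pow_le).trans ?_
      rw [Polynomial.natDegree_X_sub_C, mul_one]
    have h2 : ((∑ v ∈ Z, (v.ord φ).toNat : ℕ) : ℤ) = ∑ v ∈ Z, v.ord φ := by
      rw [Nat.cast_sum]
      refine Finset.sum_congr rfl fun v hv => ?_
      exact Int.toNat_of_nonneg ((Ord.ord_nonneg_iff v h0).mpr (hreg' v ((hZ v).mp hv).1))
    have h3 : - ∑ w ∈ Hurwitz.poles ht, w.ord φ ≤ ∑ w ∈ Hurwitz.poles ht, - w.ord t := by
      rw [← Finset.sum_neg_distrib]
      refine Finset.sum_le_sum fun w hw => ?_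
      have hw1 : 1 < w.adicValuation t := (Hurwitz.mem_poles ht w).mp hw
      have hw2 : w.adicValuation φ ≤ w.adicValuation t :=
        (hreg w).trans (max_le hw1.le le_rfl)
      have := ord_le_ord_of_adicValuation_le w h0 ht.ne_zero hw2
      omega
    rw [Hurwitz.sum_poles ht] at h3
    have h4 : ((∑ v ∈ Z, (v.ord φ).toNat : ℕ) : ℤ) ≤ (Module.finrank K⟮t⟯ F : ℤ) := by
      rw [h2, hsum]
      exact h3
    exact h1.trans (by exact_mod_cast h4)
  · -- the value
    apply (algebraMap K⟮t⟯ F).injective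
    rw [algebraMap_aeval_gen, hnorm, hP]
    simp only [map_mul, Polynomial.aeval_C, map_prod, map_pow, map_sub, Polynomial.aeval_X]

end Norm

/-! ### pencils -/

section Pencil

variable [IsAlgClosed K] [CharZero K] {ι : Type*} [Fintype ι] [DecidableEq ι]

/-- the member `f_a = ∑ a_j β_j` of the linear family -/
def fam (β : ι → F) (a : ι → K) : F := ∑ j, a j • β j

/-- the hypotheses on a pencil `t = y1(β)`, `1 = y0(β)` inside the family spanned by `β` -/
structure IsPencil (t : F) (β : ι → F) (y0 y1 : ι → K) : Prop where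
  isFF : IsFF K t
  bound : ∀ (v : Place K F) (j : ι), v.adicValuation (β j) ≤ max 1 (v.adicValuation t)
  one : fam β y0 = 1
  gen : fam β y1 = t

theorem fam_add (β : ι → F) (a b : ι → K) : fam β (a + b) = fam β a + fam β b := by
  simp [fam, add_smul, Finset.sum_add_distrib]

theorem fam_sub (β : ι → F) (a b : ι → K) : fam β (a - b) = fam β a - fam β b := by
  simp [fam, sub_smul, Finset.sum_sub_distrib]

theorem fam_smul (β : ι → F) (c : K) (a : ι → K) : fam β (c • a) = c • fam β a := by
  simp [fam, Finset.smul_sum, smul_smul]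

theorem adicValuation_algebraMap_le_one (v : Place K F) (c : K) :
    v.adicValuation (algebraMap K F c) ≤ 1 := by
  rcases eq_or_ne c 0 with rfl | hc
  · simp
  · exact (Ord.adicValuation_algebraMap v hc).le

variable {t : F} {β : ι → F} {y0 y1 : ι → K}

/-- the poles of every member are bounded by those of `t` -/
theorem IsPencil.fam_bound (h : IsPencil t β y0 y1) (a : ι → K) (v : Place K F) :
    v.adicValuation (fam β a) ≤ max 1 (v.adicValuation t) := by
  refine Valuation.map_sum_le _ fun j _ => ?_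
  rw [Algebra.smul_def, map_mul]
  calc v.adicValuation (algebraMap K F (a j)) * v.adicValuation (β j)
      ≤ 1 * v.adicValuation (β j) :=
        mul_le_mul' (adicValuation_algebraMap_le_one v (a j)) le_rfl
    _ = v.adicValuation (β j) := one_mul _
    _ ≤ _ := h.bound v j

/-- the characteristic polynomial of `f_a` over `K(t)` -/
noncomputable def charP (ht : IsFF K t) (β : ι → F) (a : ι → K) : K⟮t⟯[X] :=
  haveI := ht.finite
  LinearMap.charpoly (Algebra.lmul K⟮t⟯ F (fam β a))

theorem eval_charP (ht : IsFF K t) (β : ι → F) (a : ι → K) (e : K⟮t⟯) :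
    haveI := ht.finite
    (charP ht β a).eval e = Algebra.norm K⟮t⟯ (algebraMap K⟮t⟯ F e - fam β a) := by
  haveI := ht.finite
  have e1 : algebraMap K⟮t⟯ (Module.End K⟮t⟯ F) e - Algebra.lmul K⟮t⟯ F (fam β a) =
      Algebra.lmul K⟮t⟯ F (algebraMap K⟮t⟯ F e - fam β a) := by
    rw [map_sub, AlgHom.commutes]
  rw [charP, LinearMap.eval_charpoly, Algebra.norm_apply, e1]

variable [HasPrincipalDivisors K F]

/-- all coefficients of the characteristic polynomial are polynomials in `t`, the coefficient of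
`T^k` of degree `≤ δ - k` -/
theorem IsPencil.charP_coeff_mem (h : IsPencil t β y0 y1) (a : ι → K) (k : ℕ) :
    haveI := h.isFF.finite
    (charP h.isFF β a).coeff k ∈ polyLE (K := K) t (Module.finrank K⟮t⟯ F - k) := by
  haveI := h.isFF.finite
  have ht := h.isFF
  set δ := Module.finrank K⟮t⟯ F with hδ
  set g := AdjoinSimple.gen K t with hg
  -- values at constants
  have h1 : ∀ b : K, (charP ht β a).eval (algebraMap K K⟮t⟯ b) ∈ polyLE (K := K) t δ := by
    intro b
    rw [eval_charP]
    have e1 : algebraMap K⟮t⟯ F (algebraMap K K⟮t⟯ b) - fam β a = fam β (b • y0 - a) := by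
      rw [fam_sub, fam_smul, h.one, ← IsScalarTower.algebraMap_apply, Algebra.smul_def, mul_one]
    rw [e1]
    exact norm_mem_polyLE ht _ (h.fam_bound _)
  have h2 : ∀ k, (charP ht β a).coeff k ∈ polyLE (K := K) t δ :=
    Interp.coeff_mem _ _ h1
  -- values at constant multiples of `t`
  have h3 : ∀ b : K, ((charP ht β a).comp (C g * X)).eval (algebraMap K K⟮t⟯ b) ∈
      polyLE (K := K) t δ := by
    intro b
    rw [Polynomial.eval_comp, Polynomial.eval_mul, Polynomial.eval_C, Polynomial.eval_X,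
      eval_charP]
    have e1 : algebraMap K⟮t⟯ F (g * algebraMap K K⟮t⟯ b) - fam β a = fam β (b • y1 - a) := by
      rw [fam_sub, fam_smul, h.gen, map_mul, ← IsScalarTower.algebraMap_apply, hg,
        AdjoinSimple.algebraMap_gen, Algebra.smul_def, mul_comm]
    rw [e1]
    exact norm_mem_polyLE ht _ (h.fam_bound _)
  have h4 : ∀ k, ((charP ht β a).comp (C g * X)).coeff k ∈ polyLE (K := K) t δ :=
    Interp.coeff_mem _ _ h3
  have h5 := h4 k
  rw [Polynomial.comp_C_mul_X_coeff] at h5
  exact mem_polyLE_sub ht.transcendental (h2 k) h5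

/-! ### the generic coefficients and the coefficient forms -/

omit [HasPrincipalDivisors K F] in
theorem fam_eq_sum_algebraMap_smul (β : ι → F) (a : ι → K) :
    ∑ j, algebraMap K K⟮t⟯ (a j) • β j = fam β a := by
  refine Finset.sum_congr rfl fun j _ => ?_
  rw [algebraMap_smul]

/-- the generic coefficient of `T^k` -/
noncomputable def genCoeff (ht : IsFF K t) (β : ι → F) (k : ℕ) : MvPolynomial ι K⟮t⟯ :=
  haveI := ht.finite
  (GenericCharpoly.genChar K⟮t⟯ β).coeff k

omit [HasPrincipalDivisors K F] in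
theorem eval_genCoeff (ht : IsFF K t) (β : ι → F) (a : ι → K) (k : ℕ) :
    MvPolynomial.eval (fun j => algebraMap K K⟮t⟯ (a j)) (genCoeff ht β k) =
      (charP ht β a).coeff k := by
  haveI := ht.finite
  rw [genCoeff, GenericCharpoly.genChar_coeff_eval, fam_eq_sum_algebraMap_smul, charP]

omit [HasPrincipalDivisors K F] in
theorem genCoeff_isHomogeneous (ht : IsFF K t) (β : ι → F) {i k : ℕ}
    (hik : k + i = Module.finrank K⟮t⟯ F) : (genCoeff ht β k).IsHomogeneous i := by
  haveI := ht.finite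
  exact GenericCharpoly.genChar_coeff_isHomogeneous K⟮t⟯ β k i hik

theorem IsPencil.coeff_genCoeff_mem (h : IsPencil t β y0 y1) (k : ℕ) (m : ι →₀ ℕ) :
    (genCoeff h.isFF β k).coeff m ∈ polyLE (K := K) t (Module.finrank K⟮t⟯ F - k) := by
  refine Interp.mv_coeff_mem _ _ (fun a => ?_) m
  rw [eval_genCoeff]
  exact h.charP_coeff_mem a k

/-- inverse of `K[X] → K(t)` on its range -/
noncomputable def pre (t : F) (e : K⟮t⟯) : K[X] :=
  open Classical in
  if h : ∃ P : K[X], Polynomial.aeval (AdjoinSimple.gen K t) P = e then h.choose else 0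

omit [IsAlgClosed K] [CharZero K] [HasPrincipalDivisors K F] in
theorem pre_aeval (ht : Transcendental K t) (P : K[X]) :
    pre t (Polynomial.aeval (AdjoinSimple.gen K t) P) = P := by
  have h : ∃ Q : K[X], Polynomial.aeval (AdjoinSimple.gen K t) Q =
      Polynomial.aeval (AdjoinSimple.gen K t) P := ⟨P, rfl⟩
  rw [pre, dif_pos h]
  exact aeval_gen_injective ht h.choose_spec

omit [IsAlgClosed K] [CharZero K] [HasPrincipalDivisors K F] in
theorem pre_zero (ht : Transcendental K t) : pre (K := K) t 0 = 0 := by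
  have := pre_aeval ht (0 : K[X])
  rwa [map_zero] at this

omit [IsAlgClosed K] [CharZero K] [HasPrincipalDivisors K F] in
theorem aeval_pre_of_mem (ht : Transcendental K t) {d : ℕ} {e : K⟮t⟯}
    (he : e ∈ polyLE (K := K) t d) :
    Polynomial.aeval (AdjoinSimple.gen K t) (pre t e) = e ∧ (pre t e).natDegree ≤ d := by
  obtain ⟨P, hP, rfl⟩ := mem_polyLE.mp he
  rw [pre_aeval ht]
  exact ⟨rfl, hP⟩

/-- **the coefficient forms**: `coeffForm ht β i k` is the coefficient of `t^k` in the
coefficient `C_i(a; 1, t)` of `T^(δ-i)` of the characteristic polynomial of `f_a` -/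
noncomputable def coeffForm (ht : IsFF K t) (β : ι → F) (i k : ℕ) : MvPolynomial ι K :=
  if i ≤ Module.finrank K⟮t⟯ F then
    ∑ m ∈ (genCoeff ht β (Module.finrank K⟮t⟯ F - i)).support,
      MvPolynomial.monomial m
        ((pre t ((genCoeff ht β (Module.finrank K⟮t⟯ F - i)).coeff m)).coeff k)
  else 0

omit [HasPrincipalDivisors K F] in
theorem coeff_coeffForm (ht : IsFF K t) (β : ι → F) {i : ℕ}
    (hi : i ≤ Module.finrank K⟮t⟯ F) (k : ℕ) (m : ι →₀ ℕ) :
    (coeffForm ht β i k).coeff m =
      (pre t ((genCoeff ht β (Module.finrank K⟮t⟯ F - i)).coeff m)).coeff k := by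
  classical
  rw [coeffForm, if_pos hi, MvPolynomial.coeff_sum]
  simp only [MvPolynomial.coeff_monomial]
  rw [Finset.sum_ite_eq' _ m]
  split_ifs with hm
  · rfl
  · rw [MvPolynomial.notMem_support_iff.mp hm, pre_zero ht.transcendental, Polynomial.coeff_zero]

omit [HasPrincipalDivisors K F] in
theorem coeffForm_isHomogeneous (ht : IsFF K t) (β : ι → F) (i k : ℕ) :
    (coeffForm ht β i k).IsHomogeneous i := by
  classical
  rw [coeffForm]
  split_ifs with hi
  · refine MvPolynomial.IsHomogeneous.sum _ _ _ fun m hm => ?_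
    have hG := genCoeff_isHomogeneous ht β (i := i) (k := Module.finrank K⟮t⟯ F - i) (by omega)
    refine MvPolynomial.isHomogeneous_monomial _ ?_
    have := hG (MvPolynomial.mem_support_iff.mp hm)
    rw [Finsupp.degree_eq_weight_one]
    exact this
  · exact MvPolynomial.isHomogeneous_zero _ _ _

theorem IsPencil.coeffForm_eq_zero_of_lt (h : IsPencil t β y0 y1) {i k : ℕ} (hik : i < k) :
    coeffForm h.isFF β i k = 0 := by
  by_cases hi : i ≤ Module.finrank K⟮t⟯ F
  · ext m
    rw [coeff_coeffForm h.isFF β hi, MvPolynomial.coeff_zero]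
    have h1 := h.coeff_genCoeff_mem (Module.finrank K⟮t⟯ F - i) m
    have h2 := (aeval_pre_of_mem h.isFF.transcendental h1).2
    exact Polynomial.coeff_eq_zero_of_natDegree_lt (by omega)
  · rw [coeffForm, if_neg hi]

/-- the generic coefficient in terms of the coefficient forms -/
theorem IsPencil.genCoeff_eq_sum (h : IsPencil t β y0 y1) {i : ℕ}
    (hi : i ≤ Module.finrank K⟮t⟯ F) :
    genCoeff h.isFF β (Module.finrank K⟮t⟯ F - i) =
      ∑ k ∈ Finset.range (i + 1), MvPolynomial.C (AdjoinSimple.gen K t ^ k) *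
        MvPolynomial.map (algebraMap K K⟮t⟯) (coeffForm h.isFF β i k) := by
  refine MvPolynomial.ext _ _ fun m => ?_
  rw [MvPolynomial.coeff_sum]
  have h1 := h.coeff_genCoeff_mem (Module.finrank K⟮t⟯ F - i) m
  obtain ⟨h2, h3⟩ := aeval_pre_of_mem h.isFF.transcendental h1
  have h4 : (pre t ((genCoeff h.isFF β (Module.finrank K⟮t⟯ F - i)).coeff m)).natDegree < i + 1 := by
    omega
  rw [← h2, Polynomial.aeval_eq_sum_range' h4]
  refine Finset.sum_congr rfl fun k _ => ?_
  rw [MvPolynomial.coeff_C_mul, MvPolynomial.coeff_map, coeff_coeffForm h.isFF β hi,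
    Algebra.smul_def, mul_comm]

/-- **the coefficients of the characteristic polynomial of `f_a`** -/
theorem IsPencil.charP_coeff_eq (h : IsPencil t β y0 y1) (a : ι → K) {i : ℕ}
    (hi : i ≤ Module.finrank K⟮t⟯ F) :
    (charP h.isFF β a).coeff (Module.finrank K⟮t⟯ F - i) =
      ∑ k ∈ Finset.range (i + 1), AdjoinSimple.gen K t ^ k *
        algebraMap K K⟮t⟯ (MvPolynomial.eval a (coeffForm h.isFF β i k)) := by
  rw [← eval_genCoeff, h.genCoeff_eq_sum hi, map_sum]
  refine Finset.sum_congr rfl fun k _ => ?_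
  rw [map_mul, MvPolynomial.eval_C, MvPolynomial.eval_map]
  congr 1
  exact (MvPolynomial.eval₂_comp_left (algebraMap K K⟮t⟯) (RingHom.id K) a _).symm

/-! ### Cayley-Hamilton and the norm -/

omit [HasPrincipalDivisors K F] in
theorem charP_natDegree (ht : IsFF K t) (β : ι → F) (a : ι → K) :
    (charP ht β a).natDegree = Module.finrank K⟮t⟯ F := by
  haveI := ht.finite
  exact LinearMap.charpoly_natDegree _

omit [HasPrincipalDivisors K F] in
theorem aeval_charP (ht : IsFF K t) (β : ι → F) (a : ι → K) :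
    Polynomial.aeval (fam β a) (charP ht β a) = 0 := by
  haveI := ht.finite
  set y : F := fam β a
  have h1 := LinearMap.aeval_self_charpoly (Algebra.lmul K⟮t⟯ F y)
  have h2 : aeval (Algebra.lmul K⟮t⟯ F y) (LinearMap.charpoly (Algebra.lmul K⟮t⟯ F y)) =
      Algebra.lmul K⟮t⟯ F (aeval y (LinearMap.charpoly (Algebra.lmul K⟮t⟯ F y))) :=
    (Polynomial.aeval_algHom_apply (Algebra.lmul K⟮t⟯ F) y _)
  rw [h2] at h1
  have h3 := congrArg (fun φ : Module.End K⟮t⟯ F => φ 1) h1
  simpa [charP] using h3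

/-- the value in `F` of the coefficient `C_i(a; 1, t)` -/
noncomputable def coeffVal (ht : IsFF K t) (β : ι → F) (a : ι → K) (i : ℕ) : F :=
  ∑ k ∈ Finset.range (i + 1),
    algebraMap K F (MvPolynomial.eval a (coeffForm ht β i k)) * t ^ k

theorem IsPencil.algebraMap_charP_coeff (h : IsPencil t β y0 y1) (a : ι → K) {i : ℕ}
    (hi : i ≤ Module.finrank K⟮t⟯ F) :
    algebraMap K⟮t⟯ F ((charP h.isFF β a).coeff (Module.finrank K⟮t⟯ F - i)) =
      coeffVal h.isFF β a i := by
  rw [h.charP_coeff_eq a hi, map_sum, coeffVal]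
  refine Finset.sum_congr rfl fun k _ => ?_
  rw [map_mul, map_pow, AdjoinSimple.algebraMap_gen, ← IsScalarTower.algebraMap_apply, mul_comm]

/-- **Cayley-Hamilton** (A.2/A.3, dehomogenised):
`∑_{i ≤ δ} C_i(a; 1, t) f_a^(δ-i) = 0` in `F`. -/
theorem IsPencil.cayley (h : IsPencil t β y0 y1) (a : ι → K) :
    ∑ i ∈ Finset.range (Module.finrank K⟮t⟯ F + 1),
      coeffVal h.isFF β a i * fam β a ^ (Module.finrank K⟮t⟯ F - i) = 0 := by
  have h1 := aeval_charP h.isFF β a
  rw [Polynomial.aeval_eq_sum_range, charP_natDegree] at h1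
  rw [← Finset.sum_range_reflect] at h1
  rw [← h1]
  refine Finset.sum_congr rfl fun i hi => ?_
  have hi' : i ≤ Module.finrank K⟮t⟯ F := by
    have := Finset.mem_range.mp hi
    omega
  have e : Module.finrank K⟮t⟯ F + 1 - 1 - i = Module.finrank K⟮t⟯ F - i := by omega
  rw [e, Algebra.smul_def, h.algebraMap_charP_coeff a hi']

/-- the top coefficient is `1` -/
theorem IsPencil.coeffVal_zero (h : IsPencil t β y0 y1) (a : ι → K) :
    coeffVal h.isFF β a 0 = 1 := by
  haveI := h.isFF.finite
  have h1 := h.algebraMap_charP_coeff a (Nat.zero_le _)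
  rw [← h1, Nat.sub_zero]
  have h2 : (charP h.isFF β a).Monic := LinearMap.charpoly_monic _
  have h3 := h2.coeff_natDegree
  rw [charP_natDegree] at h3
  rw [h3, map_one]

/-- **the norm** (A.2): `Norm_{F/K(t)} f_a = (-1)^δ C_δ(a; 1, t)`. -/
theorem IsPencil.norm_eq (h : IsPencil t β y0 y1) (a : ι → K) :
    haveI := h.isFF.finite
    algebraMap K⟮t⟯ F (Algebra.norm K⟮t⟯ (fam β a)) =
      (-1) ^ Module.finrank K⟮t⟯ F * coeffVal h.isFF β a (Module.finrank K⟮t⟯ F) := by
  haveI := h.isFF.finite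
  have h1 := h.algebraMap_charP_coeff a (le_refl (Module.finrank K⟮t⟯ F))
  rw [Nat.sub_self] at h1
  rw [← h1, Algebra.norm_apply, LinearMap.det_eq_sign_charpoly_coeff, map_mul, map_pow, map_neg,
    map_one, charP]

/-- the dehomogenised norm form `N(a; 1, X)` as a polynomial over `K` -/
noncomputable def nformPoly (ht : IsFF K t) (β : ι → F) (a : ι → K) : K[X] :=
  C ((-1) ^ Module.finrank K⟮t⟯ F) *
    ∑ k ∈ Finset.range (Module.finrank K⟮t⟯ F + 1),
      C (MvPolynomial.eval a (coeffForm ht β (Module.finrank K⟮t⟯ F) k)) * X ^ k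

omit [HasPrincipalDivisors K F] in
theorem aeval_nformPoly (ht : IsFF K t) (β : ι → F) (a : ι → K) :
    Polynomial.aeval t (nformPoly ht β a) =
      (-1) ^ Module.finrank K⟮t⟯ F * coeffVal ht β a (Module.finrank K⟮t⟯ F) := by
  rw [nformPoly, coeffVal]
  simp only [map_mul, map_sum, Polynomial.aeval_C, map_pow, Polynomial.aeval_X, map_neg, map_one]

omit [HasPrincipalDivisors K F] in
theorem nformPoly_natDegree_le (ht : IsFF K t) (β : ι → F) (a : ι → K) :
    (nformPoly ht β a).natDegree ≤ Module.finrank K⟮t⟯ F := by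
  rw [nformPoly]
  refine (Polynomial.natDegree_C_mul_le _ _).trans ?_
  refine Polynomial.natDegree_sum_le_of_forall_le _ _ fun k hk => ?_
  refine (Polynomial.natDegree_C_mul_le _ _).trans ?_
  rw [Polynomial.natDegree_X_pow]
  have := Finset.mem_range.mp hk
  omega

/-- the multiplicity at `v` of the zero divisor of the section `f_a` (relative to the pencil) -/
noncomputable def mult (t : F) (β : ι → F) (a : ι → K) (v : Place K F) : ℤ :=
  v.ord (fam β a) - min 0 (v.ord t)

/-- **A.4, factorisation of the norm form**: for `f_a ≠ 0`,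
`N(a; 1, X) = c ∏_{v ∈ Z} (X - t(v))^(m_v)`, `Z` the zeros of `f_a` at which `t` is regular, and
the degree is `δ` minus the multiplicities at the poles of `t` (zeros at infinity). -/
theorem IsPencil.nformPoly_eq_prod (h : IsPencil t β y0 y1) (a : ι → K) (h0 : fam β a ≠ 0) :
    ∃ (c : K) (Z : Finset (Place K F)) (b : Place K F → K), c ≠ 0 ∧
      (∀ v, v ∈ Z ↔ v.adicValuation t ≤ 1 ∧ v.adicValuation (fam β a) < 1) ∧
      (∀ v ∈ Z, v.adicValuation (t - algebraMap K F (b v)) < 1) ∧
      nformPoly h.isFF β a = C c * ∏ v ∈ Z, (X - C (b v)) ^ (mult t β a v).toNat ∧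
      (∀ v ∈ Z, 0 < mult t β a v) ∧
      (∀ w ∈ Hurwitz.poles h.isFF, 0 ≤ mult t β a w) ∧
      ∑ v ∈ Z, mult t β a v + ∑ w ∈ Hurwitz.poles h.isFF, mult t β a w =
        (Module.finrank K⟮t⟯ F : ℤ) := by
  classical
  have ht := h.isFF
  haveI := ht.finite
  have hreg' : ∀ v : Place K F, v.adicValuation t ≤ 1 → v.adicValuation (fam β a) ≤ 1 := by
    intro v hv
    exact (h.fam_bound a v).trans (max_le le_rfl hv)
  obtain ⟨c, Z, b, hc, hZ, hbZ, hnorm⟩ := NormPoly.norm_eq_prod ht h0 hreg'
  have hsum := NormPoly.sum_ord_zeros ht h0 hreg' Z hZ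
  have hmZ : ∀ v ∈ Z, mult t β a v = v.ord (fam β a) := by
    intro v hv
    have h1 := (Ord.ord_nonneg_iff v ht.ne_zero).mpr ((hZ v).mp hv).1
    rw [mult, min_eq_left h1, sub_zero]
  have hmP : ∀ w ∈ Hurwitz.poles ht, mult t β a w = w.ord (fam β a) - w.ord t := by
    intro w hw
    have h1 := (Ord.ord_neg_iff w ht.ne_zero).mpr ((Hurwitz.mem_poles ht w).mp hw)
    rw [mult, min_eq_right h1.le]
  refine ⟨c, Z, b, hc, hZ, hbZ, ?_, ?_, ?_, ?_⟩
  · apply aeval_gen_injective ht.transcendental
    apply (algebraMap K⟮t⟯ F).injective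
    rw [algebraMap_aeval_gen, algebraMap_aeval_gen, aeval_nformPoly, ← h.norm_eq a, hnorm]
    simp only [map_mul, Polynomial.aeval_C, map_prod, map_pow, map_sub, Polynomial.aeval_X]
    refine congrArg (algebraMap K F c * ·) (Finset.prod_congr rfl fun v hv => ?_)
    rw [hmZ v hv]
  · intro v hv
    rw [hmZ v hv]
    exact (Ord.ord_pos_iff v h0).mpr ((hZ v).mp hv).2
  · intro w hw
    rw [hmP w hw]
    have hw1 : 1 < w.adicValuation t := (Hurwitz.mem_poles ht w).mp hw
    have hw2 : w.adicValuation (fam β a) ≤ w.adicValuation t :=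
      (h.fam_bound a w).trans (max_le hw1.le le_rfl)
    have := ord_le_ord_of_adicValuation_le w h0 ht.ne_zero hw2
    omega
  · rw [Finset.sum_congr rfl hmZ, Finset.sum_congr rfl hmP, Finset.sum_sub_distrib, hsum]
    have := Hurwitz.sum_poles ht
    rw [Finset.sum_neg_distrib] at this
    omega

end Pencil

end Fermat.Agent.S17.Norm.CharForm
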