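/-
PROJECT H (S17), seam S-4 (helper2), item A.3 of Part A: the homogeneous packaging of the
characteristic form.  `x : ι → F` coordinate functions, `y0 y1 : ι → K` a pencil,
`Y_k = ∑ y_k,j x_j`, `t = Y1 / Y0`, `β_j = x_j / Y0`.  The bihomogeneous polynomials
`Phi`, `NY ∈ K[a, x]` of bidegrees `(δ-1, δ-1)`, `(δ, δ)` and the cofactor identity
`F_a * Phi(a, x) = N(a; y0(x), y1(x))`.
-/
import Mathlib
import Fermat.Agent.S17.Norm.CharForm

set_option autoImplicit false
set_option linter.style.haveILetI false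
set_option linter.unusedSectionVars false

namespace Fermat.Agent.S17.Norm.CharFormHom

open AlgebraicCurve IntermediateField
open Fermat.Agent.S24 Fermat.Agent.S24.FF Fermat.Agent.S24.Fibre
open Fermat.Agent.S17.Norm Fermat.Agent.S17.Norm.CharForm

universe u w

variable {K : Type w} {F : Type u} [Field K] [Field F] [Algebra K F]
variable {ι : Type*} [Fintype ι] [DecidableEq ι]

/-! ### evaluation of polynomials in two groups of variables -/

section Eval

variable {R : Type*} [CommRing R] [Algebra K R]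

/-- the linear form `∑ y_j x_j` in the second group of variables -/
noncomputable def linForm (y : ι → K) : MvPolynomial (ι ⊕ ι) K :=
  ∑ j, MvPolynomial.C (y j) * MvPolynomial.X (Sum.inr j)

/-- the bilinear form `∑ a_j x_j` -/
noncomputable def dotForm : MvPolynomial (ι ⊕ ι) K :=
  ∑ j, MvPolynomial.X (Sum.inl j) * MvPolynomial.X (Sum.inr j)

theorem aeval_rename_inl (c : MvPolynomial ι K) (a x : ι → R) :
    MvPolynomial.aeval (Sum.elim a x) (MvPolynomial.rename Sum.inl c) = MvPolynomial.aeval a c := by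
  rw [MvPolynomial.aeval_rename]
  rfl

theorem aeval_linForm (y : ι → K) (a x : ι → R) :
    MvPolynomial.aeval (Sum.elim a x) (linForm y) = ∑ j, algebraMap K R (y j) * x j := by
  simp [linForm]

theorem aeval_dotForm (a x : ι → R) :
    MvPolynomial.aeval (Sum.elim a x) (dotForm (K := K) (ι := ι)) = ∑ j, a j * x j := by
  simp [dotForm]

/-- value of a homogeneous polynomial at a rescaled point -/
theorem aeval_smul_of_isHomogeneous {q : MvPolynomial ι K} {d : ℕ}
    (hq : q.IsHomogeneous d) (s : R) (a : ι → R) :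
    MvPolynomial.aeval (s • a) q = s ^ d * MvPolynomial.aeval a q := by
  classical
  rw [MvPolynomial.aeval_def, MvPolynomial.aeval_def, MvPolynomial.eval₂_eq',
    MvPolynomial.eval₂_eq', Finset.mul_sum]
  refine Finset.sum_congr rfl fun e he => ?_
  have hdeg : ∑ i, e i = d := by
    have h1 : e.degree = d := by
      rw [Finsupp.degree_apply]; exact (hq.degree_eq_sum_deg_support he).symm
    rw [← h1, Finsupp.degree_eq_sum]
  simp only [Pi.smul_apply, smul_eq_mul, mul_pow, Finset.prod_mul_distrib,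
    Finset.prod_pow_eq_pow_sum, hdeg]
  ring

end Eval

/-! ### the homogeneous forms -/

section Forms

variable (c : ℕ → ℕ → MvPolynomial ι K) (y0 y1 : ι → K)

/-- `C_i(a; y0(x), y1(x))` from the coefficient forms `c i k` -/
noncomputable def chom (i : ℕ) : MvPolynomial (ι ⊕ ι) K :=
  ∑ k ∈ Finset.range (i + 1),
    MvPolynomial.rename Sum.inl (c i k) * linForm y0 ^ (i - k) * linForm y1 ^ k

/-- the cofactor form `Φ(a, x)` -/
noncomputable def phiOf (δ : ℕ) : MvPolynomial (ι ⊕ ι) K :=
  MvPolynomial.C ((-1) ^ (δ - 1)) *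
    ∑ i ∈ Finset.range δ, chom c y0 y1 i * dotForm ^ (δ - 1 - i)

/-- the norm form `N(a; y0(x), y1(x))` -/
noncomputable def nyOf (δ : ℕ) : MvPolynomial (ι ⊕ ι) K :=
  MvPolynomial.C ((-1) ^ δ) * chom c y0 y1 δ

variable {R : Type*} [CommRing R] [Algebra K R]

theorem aeval_chom (i : ℕ) (a x : ι → R) :
    MvPolynomial.aeval (Sum.elim a x) (chom c y0 y1 i) =
      ∑ k ∈ Finset.range (i + 1), MvPolynomial.aeval a (c i k) *
        (∑ j, algebraMap K R (y0 j) * x j) ^ (i - k) * (∑ j, algebraMap K R (y1 j) * x j) ^ k := by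
  rw [chom, map_sum]
  refine Finset.sum_congr rfl fun k _ => ?_
  rw [map_mul, map_mul, map_pow, map_pow, aeval_rename_inl, aeval_linForm, aeval_linForm]

/-- scaling of `C_i` -/
theorem aeval_chom_smul (hc : ∀ i k, (c i k).IsHomogeneous i) (i : ℕ) (s u : R) (a x : ι → R) :
    MvPolynomial.aeval (Sum.elim (s • a) (u • x)) (chom c y0 y1 i) =
      s ^ i * u ^ i * MvPolynomial.aeval (Sum.elim a x) (chom c y0 y1 i) := by
  rw [aeval_chom, aeval_chom, Finset.mul_sum]
  refine Finset.sum_congr rfl fun k hk => ?_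
  have hk' : k ≤ i := by
    have := Finset.mem_range.mp hk
    omega
  rw [aeval_smul_of_isHomogeneous (hc i k)]
  have e0 : ∀ y : ι → K, ∑ j, algebraMap K R (y j) * (u • x) j =
      u * ∑ j, algebraMap K R (y j) * x j := by
    intro y
    rw [Finset.mul_sum]
    refine Finset.sum_congr rfl fun j _ => ?_
    rw [Pi.smul_apply, smul_eq_mul]
    ring
  rw [e0, e0, mul_pow, mul_pow]
  have e1 : u ^ i = u ^ (i - k) * u ^ k := by
    rw [← pow_add]
    congr 1
    omega
  rw [e1]
  ring

/-- **bihomogeneity of `Φ`**, bidegree `(δ-1, δ-1)`, in scaling form -/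
theorem aeval_phiOf_smul (hc : ∀ i k, (c i k).IsHomogeneous i) (δ : ℕ) (s u : R) (a x : ι → R) :
    MvPolynomial.aeval (Sum.elim (s • a) (u • x)) (phiOf c y0 y1 δ) =
      s ^ (δ - 1) * u ^ (δ - 1) * MvPolynomial.aeval (Sum.elim a x) (phiOf c y0 y1 δ) := by
  rw [phiOf, map_mul, map_mul, map_sum, map_sum, Finset.mul_sum, Finset.mul_sum, Finset.mul_sum]
  refine Finset.sum_congr rfl fun i hi => ?_
  have hi' : i ≤ δ - 1 := by
    have := Finset.mem_range.mp hi
    omega
  have e0 : ∑ j, (s • a) j * (u • x) j = s * u * ∑ j, a j * x j := by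
    rw [Finset.mul_sum]
    refine Finset.sum_congr rfl fun j _ => ?_
    rw [Pi.smul_apply, Pi.smul_apply, smul_eq_mul, smul_eq_mul]
    ring
  have e1 : s ^ (δ - 1) = s ^ i * s ^ (δ - 1 - i) := by
    rw [← pow_add]
    congr 1
    omega
  have e2 : u ^ (δ - 1) = u ^ i * u ^ (δ - 1 - i) := by
    rw [← pow_add]
    congr 1
    omega
  simp only [map_mul, map_pow, aeval_chom_smul c y0 y1 hc, aeval_dotForm, MvPolynomial.aeval_C]
  rw [e0, mul_pow, mul_pow, e1, e2]
  ring

/-- **bihomogeneity of `N(a; y(x))`**, bidegree `(δ, δ)`, in scaling form -/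
theorem aeval_nyOf_smul (hc : ∀ i k, (c i k).IsHomogeneous i) (δ : ℕ) (s u : R) (a x : ι → R) :
    MvPolynomial.aeval (Sum.elim (s • a) (u • x)) (nyOf c y0 y1 δ) =
      s ^ δ * u ^ δ * MvPolynomial.aeval (Sum.elim a x) (nyOf c y0 y1 δ) := by
  rw [nyOf, map_mul, map_mul, aeval_chom_smul c y0 y1 hc]
  simp only [MvPolynomial.aeval_C]
  ring

end Forms

/-! ### the pencil of a pair of linear forms in coordinate functions -/

section Cofactor

variable [IsAlgClosed K] [CharZero K]

/-- the linear form `∑ a_j x_j` in the coordinate functions -/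
def lin (x : ι → F) (a : ι → K) : F := ∑ j, algebraMap K F (a j) * x j

/-- hypotheses on a pencil `(y0, y1)` of linear forms in the coordinate functions `x`:
`y0(x) ≠ 0`, `t = y1(x)/y0(x)` separating, and no common zero of `y0(x), y1(x)` as sections:
`ord_w x_j ≥ min (ord_w y0(x)) (ord_w y1(x))` at every place -/
structure IsPencilX (x : ι → F) (y0 y1 : ι → K) : Prop where
  ne : lin x y0 ≠ 0
  isFF : IsFF K (lin x y1 / lin x y0)
  bound : ∀ (v : Place K F) (j : ι), v.adicValuation (x j) ≤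
    max (v.adicValuation (lin x y0)) (v.adicValuation (lin x y1))

omit [IsAlgClosed K] [CharZero K] [DecidableEq ι] in
theorem fam_div (x : ι → F) (u : F) (a : ι → K) : fam (fun j => x j / u) a = lin x a / u := by
  rw [fam, lin, Finset.sum_div]
  refine Finset.sum_congr rfl fun j _ => ?_
  rw [Algebra.smul_def, mul_div_assoc]

variable {x : ι → F} {y0 y1 : ι → K}

theorem IsPencilX.isPencil (h : IsPencilX x y0 y1) :
    IsPencil (lin x y1 / lin x y0) (fun j => x j / lin x y0) y0 y1 where
  isFF := h.isFF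
  bound := by
    intro v j
    have h0 : v.adicValuation (lin x y0) ≠ 0 := (map_ne_zero _).mpr h.ne
    rw [map_div₀, map_div₀, div_eq_mul_inv, div_eq_mul_inv]
    rcases le_max_iff.mp (h.bound v j) with h1 | h1
    · exact (mul_inv_le_one_of_le₀ h1 zero_le).trans (le_max_left _ _)
    · exact (mul_le_mul' h1 le_rfl).trans (le_max_right _ _)
  one := by rw [fam_div, div_self h.ne]
  gen := fam_div x _ y1

variable [HasPrincipalDivisors K F]

/-- the degree `δ = [F : K(t)]` of the pencil -/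
noncomputable def degX (x : ι → F) (y0 y1 : ι → K) : ℕ :=
  Module.finrank K⟮lin x y1 / lin x y0⟯ F

/-- the coefficient forms of the pencil: `cform h i k` is the coefficient of `Y0^(i-k) Y1^k` in
`C_i(a; Y0, Y1)`, homogeneous of degree `i` in `a` -/
noncomputable def cform (h : IsPencilX x y0 y1) (i k : ℕ) : MvPolynomial ι K :=
  coeffForm h.isFF (fun j => x j / lin x y0) i k

/-- **the cofactor form** `Φ(a, x)`, bihomogeneous of bidegree `(δ-1, δ-1)` -/
noncomputable def Phi (h : IsPencilX x y0 y1) : MvPolynomial (ι ⊕ ι) K :=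
  phiOf (cform h) y0 y1 (degX x y0 y1)

/-- **the norm form** `N(a; y0(x), y1(x))`, bihomogeneous of bidegree `(δ, δ)` -/
noncomputable def NY (h : IsPencilX x y0 y1) : MvPolynomial (ι ⊕ ι) K :=
  nyOf (cform h) y0 y1 (degX x y0 y1)

/-- the dehomogenised norm form `N(a; 1, X)` -/
noncomputable def Np (h : IsPencilX x y0 y1) (a : ι → K) : Polynomial K :=
  nformPoly h.isFF (fun j => x j / lin x y0) a

theorem cform_isHomogeneous (h : IsPencilX x y0 y1) (i k : ℕ) : (cform h i k).IsHomogeneous i :=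
  coeffForm_isHomogeneous _ _ i k

theorem cform_eq_zero_of_lt (h : IsPencilX x y0 y1) {i k : ℕ} (hik : i < k) : cform h i k = 0 :=
  h.isPencil.coeffForm_eq_zero_of_lt hik

theorem degX_pos (h : IsPencilX x y0 y1) : 0 < degX x y0 y1 := by
  haveI := h.isFF.finite
  exact Module.finrank_pos

/-- `C_i(a; y0(x), y1(x)) = y0(x)^i C_i(a; 1, t)` -/
theorem aeval_chom_eq (h : IsPencilX x y0 y1) (a : ι → K) (i : ℕ) :
    MvPolynomial.aeval (Sum.elim (fun j => algebraMap K F (a j)) x) (chom (cform h) y0 y1 i) =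
      lin x y0 ^ i * coeffVal h.isFF (fun j => x j / lin x y0) a i := by
  rw [aeval_chom, coeffVal, Finset.mul_sum]
  refine Finset.sum_congr rfl fun k hk => ?_
  have hk' : k ≤ i := by
    have := Finset.mem_range.mp hk
    omega
  have e1 : MvPolynomial.aeval (fun j => algebraMap K F (a j)) (cform h i k) =
      algebraMap K F (MvPolynomial.eval a (cform h i k)) := by
    have e : MvPolynomial.aeval a (cform h i k) = MvPolynomial.eval a (cform h i k) := rfl
    rw [← e]
    exact MvPolynomial.aeval_algebraMap_apply (B := F) a (cform h i k)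
  have e2 : (∑ j, algebraMap K F (y1 j) * x j) = lin x y0 * (lin x y1 / lin x y0) := by
    rw [mul_div_cancel₀ _ h.ne]
    rfl
  have e3 : lin x y0 ^ i = lin x y0 ^ (i - k) * lin x y0 ^ k := by
    rw [← pow_add]
    congr 1
    omega
  rw [e1, e2, mul_pow, e3]
  change _ * lin x y0 ^ (i - k) * _ = _
  rw [cform]
  ring

/-- the commutative algebra behind the cofactor identity -/
theorem cofactor_aux {A : Type*} [CommRing A] (δ : ℕ) (hδ : 0 < δ) (cv : ℕ → A) (f Y0 L : A)
    (hL : L = Y0 * f) (hcay : ∑ i ∈ Finset.range δ, cv i * f ^ (δ - i) + cv δ = 0) :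
    ∑ i ∈ Finset.range δ, L * ((-1) ^ (δ - 1) * (Y0 ^ i * cv i * L ^ (δ - 1 - i))) =
      (-1) ^ δ * (Y0 ^ δ * cv δ) := by
  have hsum : ∑ i ∈ Finset.range δ, L * ((-1) ^ (δ - 1) * (Y0 ^ i * cv i * L ^ (δ - 1 - i))) =
      (-1) ^ (δ - 1) * Y0 ^ δ * ∑ i ∈ Finset.range δ, cv i * f ^ (δ - i) := by
    rw [Finset.mul_sum]
    refine Finset.sum_congr rfl fun i hi => ?_
    have hi' : i < δ := Finset.mem_range.mp hi
    have e1 : L * L ^ (δ - 1 - i) = L ^ (δ - i) := by
      rw [← pow_succ']
      congr 1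
      omega
    have e2 : Y0 ^ δ = Y0 ^ i * Y0 ^ (δ - i) := by
      rw [← pow_add]
      congr 1
      omega
    calc L * ((-1) ^ (δ - 1) * (Y0 ^ i * cv i * L ^ (δ - 1 - i)))
        = (-1) ^ (δ - 1) * Y0 ^ i * cv i * (L * L ^ (δ - 1 - i)) := by ring
      _ = (-1) ^ (δ - 1) * Y0 ^ i * cv i * (Y0 ^ (δ - i) * f ^ (δ - i)) := by
          rw [e1, hL, mul_pow]
      _ = _ := by rw [e2]; ring
  have hcay' : ∑ i ∈ Finset.range δ, cv i * f ^ (δ - i) = - cv δ := by
    rw [eq_neg_iff_add_eq_zero]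
    exact hcay
  have hsign : ((-1 : A)) ^ δ = (-1) ^ (δ - 1) * (-1) := by
    rw [← pow_succ]
    congr 1
    omega
  rw [hsum, hcay', hsign]
  ring

/-- **A.3, the cofactor identity**: `F_a * Φ(a, x) = N(a; y0(x), y1(x))` in `F`. -/
theorem cofactor (h : IsPencilX x y0 y1) (a : ι → K) :
    lin x a * MvPolynomial.aeval (Sum.elim (fun j => algebraMap K F (a j)) x) (Phi h) =
      MvPolynomial.aeval (Sum.elim (fun j => algebraMap K F (a j)) x) (NY h) := by
  have hδ := degX_pos h
  have hcay := h.isPencil.cayley a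
  rw [Finset.sum_range_succ, Nat.sub_self, pow_zero, mul_one] at hcay
  have hfam : fam (fun j => x j / lin x y0) a = lin x a / lin x y0 := fam_div x _ a
  have hlin : lin x a = lin x y0 * fam (fun j => x j / lin x y0) a := by
    rw [hfam, mul_div_cancel₀ _ h.ne]
  have hdot : ∑ j, algebraMap K F (a j) * x j = lin x a := rfl
  rw [Phi, NY, phiOf, nyOf, map_mul, map_mul, map_sum, Finset.mul_sum, Finset.mul_sum]
  simp only [map_mul, map_pow, map_neg, map_one, aeval_dotForm, aeval_chom_eq h, hdot]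
  exact cofactor_aux (degX x y0 y1) hδ _ _ _ _ hlin hcay

/-- the norm form evaluated on the curve is `y0(x)^δ` times the dehomogenised norm form at `t` -/
theorem aeval_NY (h : IsPencilX x y0 y1) (a : ι → K) :
    MvPolynomial.aeval (Sum.elim (fun j => algebraMap K F (a j)) x) (NY h) =
      lin x y0 ^ degX x y0 y1 * Polynomial.aeval (lin x y1 / lin x y0) (Np h a) := by
  rw [NY, nyOf, map_mul, aeval_chom_eq h, Np, aeval_nformPoly]
  simp only [map_pow, map_neg, map_one]
  rw [degX]
  ring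

/-- **A.2, the norm**: `N(a; 1, t) = Norm_{F/K(t)} (F_a / y0(x))` -/
theorem aeval_Np (h : IsPencilX x y0 y1) (a : ι → K) :
    haveI := h.isFF.finite
    Polynomial.aeval (lin x y1 / lin x y0) (Np h a) =
      algebraMap K⟮lin x y1 / lin x y0⟯ F
        (Algebra.norm K⟮lin x y1 / lin x y0⟯ (lin x a / lin x y0)) := by
  haveI := h.isFF.finite
  rw [Np, aeval_nformPoly, ← h.isPencil.norm_eq a, fam_div]

theorem natDegree_Np_le (h : IsPencilX x y0 y1) (a : ι → K) :
    (Np h a).natDegree ≤ degX x y0 y1 :=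
  nformPoly_natDegree_le _ _ a

/-- bihomogeneity of `Φ` in scaling form -/
theorem aeval_Phi_smul (h : IsPencilX x y0 y1) {R : Type*} [CommRing R] [Algebra K R]
    (s u : R) (a z : ι → R) :
    MvPolynomial.aeval (Sum.elim (s • a) (u • z)) (Phi h) =
      s ^ (degX x y0 y1 - 1) * u ^ (degX x y0 y1 - 1) *
        MvPolynomial.aeval (Sum.elim a z) (Phi h) :=
  aeval_phiOf_smul _ y0 y1 (cform_isHomogeneous h) _ s u a z

/-- bihomogeneity of `N(a; y(x))` in scaling form -/
theorem aeval_NY_smul (h : IsPencilX x y0 y1) {R : Type*} [CommRing R] [Algebra K R]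
    (s u : R) (a z : ι → R) :
    MvPolynomial.aeval (Sum.elim (s • a) (u • z)) (NY h) =
      s ^ degX x y0 y1 * u ^ degX x y0 y1 * MvPolynomial.aeval (Sum.elim a z) (NY h) :=
  aeval_nyOf_smul _ y0 y1 (cform_isHomogeneous h) _ s u a z

/-- the norm form vanishes exactly on `F_a = 0` -/
theorem Np_eq_zero_iff (h : IsPencilX x y0 y1) (a : ι → K) : Np h a = 0 ↔ lin x a = 0 := by
  haveI := h.isFF.finite
  constructor
  · intro h0
    have h1 := aeval_Np h a
    rw [h0, map_zero] at h1
    have h2 : Algebra.norm K⟮lin x y1 / lin x y0⟯ (lin x a / lin x y0) = 0 :=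
      (map_eq_zero _).mp h1.symm
    have h3 := Algebra.norm_eq_zero_iff.mp h2
    rcases div_eq_zero_iff.mp h3 with h4 | h4
    · exact h4
    · exact absurd h4 h.ne
  · intro h0
    apply aeval_gen_injective h.isFF.transcendental
    apply (algebraMap K⟮lin x y1 / lin x y0⟯ F).injective
    rw [algebraMap_aeval_gen, aeval_Np h a, h0, zero_div, Algebra.norm_zero, map_zero, map_zero,
      map_zero]

/-- the multiplicity of the section `F_a` at `v`, relative to the pencil -/
noncomputable def multX (x : ι → F) (y0 y1 : ι → K) (a : ι → K) (v : Place K F) : ℤ :=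
  v.ord (lin x a) - min (v.ord (lin x y0)) (v.ord (lin x y1))

theorem mult_eq_multX (h : IsPencilX x y0 y1) (a : ι → K) (h0 : lin x a ≠ 0) (v : Place K F) :
    mult (lin x y1 / lin x y0) (fun j => x j / lin x y0) a v = multX x y0 y1 a v := by
  have h1 : lin x y1 ≠ 0 := by
    intro h1
    have := h.isFF.ne_zero
    rw [h1, zero_div] at this
    exact this rfl
  rw [mult, multX, fam_div, div_eq_mul_inv, div_eq_mul_inv, v.ord_mul h0 (inv_ne_zero h.ne),
    v.ord_mul h1 (inv_ne_zero h.ne), Place.ord_inv]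
  rcases le_total (v.ord (lin x y0)) (v.ord (lin x y1)) with h2 | h2
  · rw [min_eq_left h2, min_eq_left (by omega)]
    omega
  · rw [min_eq_right h2, min_eq_right (by omega)]
    omega

/-- **A.4 in the coordinates `x`**: `N(a; 1, X) = c ∏_{v ∈ Z} (X - t(v))^(m_v)`, `Z` the zeros of
the section `F_a` off the zeros of `y0(x)`; the zeros on `Z(y0)` account for the degree defect -/
theorem Np_eq_prod (h : IsPencilX x y0 y1) (a : ι → K) (h0 : lin x a ≠ 0) :
    ∃ (c : K) (Z : Finset (Place K F)) (b : Place K F → K), c ≠ 0 ∧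
      (∀ v, v ∈ Z ↔ v.adicValuation (lin x y1 / lin x y0) ≤ 1 ∧
        v.adicValuation (lin x a / lin x y0) < 1) ∧
      (∀ v ∈ Z, v.adicValuation (lin x y1 / lin x y0 - algebraMap K F (b v)) < 1) ∧
      Np h a = Polynomial.C c *
        ∏ v ∈ Z, (Polynomial.X - Polynomial.C (b v)) ^ (multX x y0 y1 a v).toNat ∧
      (∀ v ∈ Z, 0 < multX x y0 y1 a v) ∧
      (∀ w ∈ Hurwitz.poles h.isFF, 0 ≤ multX x y0 y1 a w) ∧
      ∑ v ∈ Z, multX x y0 y1 a v + ∑ w ∈ Hurwitz.poles h.isFF, multX x y0 y1 a w =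
        (degX x y0 y1 : ℤ) := by
  have hf : fam (fun j => x j / lin x y0) a ≠ 0 := by
    rw [fam_div]
    exact div_ne_zero h0 h.ne
  obtain ⟨c, Z, b, hc, hZ, hb, hN, hpos, hnn, hsum⟩ := h.isPencil.nformPoly_eq_prod a hf
  simp only [mult_eq_multX h a h0] at hN hpos hnn hsum
  rw [fam_div] at hZ
  exact ⟨c, Z, b, hc, hZ, hb, hN, hpos, hnn, hsum⟩

end Cofactor

end Fermat.Agent.S17.Norm.CharFormHom
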