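/-
PROJECT H (S17), seam S-4 (helper2), abstract core of A.2/A.3: the generic characteristic
polynomial of a linear family `c ↦ ∑ c_j β_j` of elements of a finite free `R`-algebra `B`
(Mathlib's `LinearMap.polyCharpoly`), with Cayley-Hamilton and the norm.  Mathlib only.
-/
import Mathlib

set_option autoImplicit false
set_option linter.unusedSectionVars false

namespace Fermat.Agent.S17.Norm.GenericCharpoly

open Polynomial Module

variable (R : Type*) {B : Type*} [CommRing R] [Nontrivial R] [CommRing B] [Algebra R B]
  [Module.Free R B] [Module.Finite R B] {ι : Type*} [Fintype ι] [DecidableEq ι]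

/-- the linear family `c ↦ (multiplication by ∑ c_j β_j)` -/
noncomputable def family (β : ι → B) : (ι → R) →ₗ[R] Module.End R B :=
  (Algebra.lmul R B).toLinearMap ∘ₗ Fintype.linearCombination R β

theorem family_apply (β : ι → B) (c : ι → R) :
    family R β c = Algebra.lmul R B (∑ j, c j • β j) := by
  simp [family, Fintype.linearCombination_apply]

/-- the generic characteristic polynomial of the family -/
noncomputable def genChar (β : ι → B) : Polynomial (MvPolynomial ι R) :=
  LinearMap.polyCharpoly (family R β) (Pi.basisFun R ι)

theorem genChar_monic (β : ι → B) : (genChar R β).Monic :=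
  LinearMap.polyCharpoly_monic (family R β) (Pi.basisFun R ι)

theorem genChar_natDegree (β : ι → B) : (genChar R β).natDegree = finrank R B :=
  LinearMap.polyCharpoly_natDegree (family R β) (Pi.basisFun R ι)

theorem genChar_coeff_isHomogeneous (β : ι → B) (i j : ℕ) (hij : i + j = finrank R B) :
    ((genChar R β).coeff i).IsHomogeneous j :=
  LinearMap.polyCharpoly_coeff_isHomogeneous (family R β) (Pi.basisFun R ι) i j hij

theorem genChar_map_eval (β : ι → B) (c : ι → R) :
    (genChar R β).map (MvPolynomial.eval c) =
      (Algebra.lmul R B (∑ j, c j • β j)).charpoly := by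
  have h := LinearMap.polyCharpoly_map_eq_charpoly (family R β) (Pi.basisFun R ι) c
  rw [family_apply] at h
  rw [← h, genChar]
  rfl

theorem genChar_coeff_eval (β : ι → B) (c : ι → R) (i : ℕ) :
    MvPolynomial.eval c ((genChar R β).coeff i) =
      (Algebra.lmul R B (∑ j, c j • β j)).charpoly.coeff i := by
  rw [← genChar_map_eval, Polynomial.coeff_map]

/-- Cayley-Hamilton for every member of the family -/
theorem aeval_genChar (β : ι → B) (c : ι → R) :
    aeval (∑ j, c j • β j) ((genChar R β).map (MvPolynomial.eval c)) = 0 := by
  rw [genChar_map_eval]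
  set y : B := ∑ j, c j • β j
  have h1 := LinearMap.aeval_self_charpoly (Algebra.lmul R B y)
  have h2 : aeval (Algebra.lmul R B y) (LinearMap.charpoly (Algebra.lmul R B y)) =
      Algebra.lmul R B (aeval y (LinearMap.charpoly (Algebra.lmul R B y))) :=
    (Polynomial.aeval_algHom_apply (Algebra.lmul R B) y _)
  rw [h2] at h1
  have h3 := congrArg (fun φ : Module.End R B => φ 1) h1
  simpa using h3

/-- the norm is the constant coefficient up to sign -/
theorem norm_eq (β : ι → B) (c : ι → R) :
    Algebra.norm R (∑ j, c j • β j) =
      (-1) ^ finrank R B * MvPolynomial.eval c ((genChar R β).coeff 0) := by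
  rw [genChar_coeff_eval, Algebra.norm_apply, LinearMap.det_eq_sign_charpoly_coeff]

end Fermat.Agent.S17.Norm.GenericCharpoly
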